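import Fermat.Agent.H5.Ord.HopfPoly

/-!
# P-ORD, HOPF LEMMA (helper5)

`R` a discrete valuation ring in which the odd prime `p` is a uniformiser, `Γ` a group of
order `p`.  Every Hopf order in `Maps(Γ, R)` - an `R`-subalgebra `H` of `Γ → R`, closed under
the comultiplication `(Δ h)(x, y) = h (x + y)` and containing a nonconstant function - is all of
`Γ → R`.  In particular it contains the indicator function of `0`, so its functions are NOT all
constant modulo `p`.

Proof (elementary, no duality).  `N = {x | h x ≡ h 0 mod p for all h ∈ H}` is a subgroup of `Γ`.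
* `N = 0`: the indicator of `0` is a product of functions `(h - h x) / (h 0 - h x)`.
* `N = Γ`: `(τ - 1) / p` preserves `H` (`τ` a translation), hence `(τ - 1)ⁿ H ⊆ pⁿ H`; with the
  identity `pⁿ (X - 1) ≡ (X - 1) ^ (n (p - 1) + 1) Aⁿ mod (X ^ p - 1)` this gives
  `(τ - 1) h ∈ ⋂ pⁿ`, so `h` is constant.
-/

set_option autoImplicit false
set_option linter.unusedSectionVars false
set_option linter.style.haveILetI false
set_option linter.unusedVariables false
set_option linter.unusedSimpArgs false

namespace Fermat.Agent.H5.Ord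

open Polynomial

section general

variable {R : Type*} [CommRing R] {Γ : Type*} [AddCommGroup Γ]

/-- Closure under the comultiplication `(Δ h)(x, y) = h (x + y)`, in function form. -/
def DeltaClosed (H : Subalgebra R (Γ → R)) : Prop :=
  ∀ h ∈ H, ∃ (n : ℕ) (f g : Fin n → (Γ → R)), (∀ i, f i ∈ H) ∧ (∀ i, g i ∈ H) ∧
    ∀ x y, h (x + y) = ∑ i, f i x * g i y

/-- The translation operator `(τ_g h)(x) = h (x + g)`. -/
def hopfTrans (g : Γ) : Module.End R (Γ → R) := LinearMap.funLeft R R (· + g)

@[simp] lemma hopfTrans_apply (g : Γ) (h : Γ → R) (x : Γ) :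
    hopfTrans (R := R) g h x = h (x + g) := rfl

lemma DeltaClosed.trans_mem {H : Subalgebra R (Γ → R)} (hΔ : DeltaClosed H) {h : Γ → R}
    (hh : h ∈ H) (g : Γ) : hopfTrans g h ∈ H := by
  obtain ⟨n, f, k, hf, hk, hfk⟩ := hΔ h hh
  have : hopfTrans g h = ∑ i, k i g • f i := by
    funext x
    simp [hfk, Finset.sum_apply, mul_comm]
  rw [this]
  exact H.sum_mem fun i _ => H.smul_mem (hf i) _

/-- If all functions of `H` are constant modulo `a`, then `(τ_g - 1) / a` preserves `H`. -/
lemma DeltaClosed.exists_div {H : Subalgebra R (Γ → R)} (hΔ : DeltaClosed H) (a : R)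
    (hconst : ∀ h ∈ H, ∀ x, a ∣ h x - h 0) {h : Γ → R} (hh : h ∈ H) (g : Γ) :
    ∃ h' ∈ H, (hopfTrans g - 1 : Module.End R (Γ → R)) h = a • h' := by
  obtain ⟨n, f, k, hf, hk, hfk⟩ := hΔ h hh
  choose c hc using fun i => hconst (k i) (hk i) g
  refine ⟨∑ i, c i • f i, H.sum_mem fun i _ => H.smul_mem (hf i) _, ?_⟩
  funext x
  have h1 : h (x + g) = ∑ i, f i x * k i g := hfk x g
  have h2 : h x = ∑ i, f i x * k i 0 := by
    have := hfk x 0
    rwa [add_zero] at this
  simp only [LinearMap.sub_apply, Module.End.one_apply, Pi.sub_apply, hopfTrans_apply,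
    Pi.smul_apply, Finset.sum_apply, smul_eq_mul]
  rw [h1, h2, ← Finset.sum_sub_distrib, Finset.mul_sum]
  refine Finset.sum_congr rfl fun i _ => ?_
  rw [← mul_sub, hc i]
  ring

lemma DeltaClosed.exists_div_pow {H : Subalgebra R (Γ → R)} (hΔ : DeltaClosed H) (a : R)
    (hconst : ∀ h ∈ H, ∀ x, a ∣ h x - h 0) (g : Γ) (n : ℕ) :
    ∀ h ∈ H, ∃ h' ∈ H, ((hopfTrans g - 1 : Module.End R (Γ → R)) ^ n) h = a ^ n • h' := by
  induction n with
  | zero => exact fun h hh => ⟨h, hh, by simp⟩
  | succ n ih =>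
    intro h hh
    obtain ⟨h₁, hh₁, e₁⟩ := hΔ.exists_div a hconst hh g
    obtain ⟨h₂, hh₂, e₂⟩ := ih h₁ hh₁
    refine ⟨h₂, hh₂, ?_⟩
    rw [pow_succ, Module.End.mul_apply, e₁, map_smul, e₂, smul_smul, pow_succ']


lemma hopfTrans_pow_apply (g : Γ) (n : ℕ) (h : Γ → R) (x : Γ) :
    ((hopfTrans (R := R) g) ^ n) h x = h (x + n • g) := by
  induction n generalizing x with
  | zero => simp
  | succ n ih =>
    rw [pow_succ', Module.End.mul_apply, hopfTrans_apply, ih, succ_nsmul]
    congr 1
    abel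

end general

section domain

variable {R : Type*} [CommRing R] [IsDomain R] [IsNoetherianRing R]
  {Γ : Type*} [AddCommGroup Γ]

/-- In a noetherian domain an element divisible by all powers of a nonunit is zero. -/
lemma hopf_eq_zero_of_forall_pow_dvd {a v : R} (ha : ¬ IsUnit a) (h : ∀ n : ℕ, a ^ n ∣ v) :
    v = 0 := by
  have hI : Ideal.span {a} ≠ ⊤ := by
    rw [Ne, Ideal.span_singleton_eq_top]; exact ha
  have h0 := Ideal.iInf_pow_eq_bot_of_isDomain (Ideal.span {a}) hI
  have hv : v ∈ ⨅ i : ℕ, Ideal.span {a} ^ i := by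
    rw [Ideal.mem_iInf]
    intro n
    rw [Ideal.span_singleton_pow, Ideal.mem_span_singleton]
    exact h n
  rw [h0] at hv
  exact hv

/-- **Connected case.** If all functions of a `Δ`-closed subalgebra `H` are constant modulo the
odd prime `p` (a nonzero nonunit of `R`), then they are invariant under translation by every
element `g` with `p • g = 0`. -/
theorem hopf_connected_invariant (p : ℕ) (hp : p.Prime) (hp2 : p ≠ 2) (hpR : ¬ IsUnit (p : R))
    (hp0 : (p : R) ≠ 0) (H : Subalgebra R (Γ → R)) (hΔ : DeltaClosed H)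
    (hconst : ∀ h ∈ H, ∀ x, (p : R) ∣ h x - h 0) (g : Γ) (hg : p • g = 0) :
    ∀ h ∈ H, ∀ x, h (x + g) = h x := by
  intro h hh x
  set τ : Module.End R (Γ → R) := hopfTrans g with hτ
  have hτp : τ ^ p = 1 := by
    refine LinearMap.ext fun f => funext fun y => ?_
    rw [hτ, hopfTrans_pow_apply, hg, add_zero]
    rfl
  obtain ⟨A, hA⟩ := hopf_poly_identity_pow p hp hp2
  set T : ℤ[X] →ₐ[ℤ] Module.End R (Γ → R) := aeval τ with hT
  have hTX : T (X - 1) = τ - 1 := by simp [hT]
  have hTp : T (X ^ p - 1) = 0 := by simp [hT, hτp]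
  have key : ∀ n : ℕ, (p : R) ^ n ∣ (h (x + g) - h x) := by
    intro n
    obtain ⟨C, hC⟩ := hA n
    have h1 := congrArg T hC
    rw [mul_comm ((X - 1 : ℤ[X]) ^ (n * (p - 1) + 1)) (A ^ n)] at h1
    simp only [map_mul, map_add, map_pow, hTX, hTp, zero_mul, add_zero, map_natCast] at h1
    obtain ⟨h', hh', e'⟩ := hΔ.exists_div_pow (p : R) hconst g (n * (p - 1) + 1) h hh
    have h2 := congrFun (LinearMap.congr_fun h1 h) x
    rw [Module.End.mul_apply, Module.End.mul_apply, e', map_smul] at h2
    have h3 : (((p : Module.End R (Γ → R)) ^ n) ((τ - 1) h)) x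
        = (p : R) ^ n * (h (x + g) - h x) := by
      have : ((p : Module.End R (Γ → R)) ^ n) = ((p : R) ^ n) • (1 : Module.End R (Γ → R)) := by
        rw [← Nat.cast_pow, ← Nat.cast_pow]
        refine LinearMap.ext fun f => ?_
        rw [Module.End.natCast_apply, LinearMap.smul_apply, Module.End.one_apply,
          Nat.cast_smul_eq_nsmul]
      rw [this]
      simp [hτ]
    rw [h3, Pi.smul_apply, smul_eq_mul] at h2
    have hexp : n * (p - 1) + 1 = n + (n * (p - 2) + 1) := by
      have := hp.two_le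
      have h4 : p - 1 = (p - 2) + 1 := by omega
      rw [h4]; ring
    rw [hexp, pow_add, mul_assoc] at h2
    have h5 := mul_left_cancel₀ (pow_ne_zero n hp0) h2
    rw [h5]
    have hle : n ≤ n * (p - 2) + 1 := by
      have h6 : 1 ≤ p - 2 := by
        have := hp.two_le
        omega
      nlinarith
    exact Dvd.dvd.mul_right (pow_dvd_pow _ hle) _
  have := hopf_eq_zero_of_forall_pow_dvd hpR key
  exact sub_eq_zero.1 this

end domain


section etale

variable {R : Type*} [CommRing R] {Γ : Type*} [AddCommGroup Γ] [Finite Γ]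

/-- **Étale case.** If `H` is closed under translations and separates `0` from every `x ≠ 0`
by a function whose difference of values is a unit, then `H` is everything. -/
theorem hopf_etale_eq_top (H : Subalgebra R (Γ → R))
    (htrans : ∀ h ∈ H, ∀ g : Γ, hopfTrans g h ∈ H)
    (hsep : ∀ x : Γ, x ≠ 0 → ∃ h ∈ H, IsUnit (h 0 - h x)) : H = ⊤ := by
  classical
  haveI : Fintype Γ := Fintype.ofFinite Γ
  choose! hx hxH hxu using hsep
  -- the indicator of `0`
  set δ : Γ → R := ∏ x ∈ Finset.univ.erase (0 : Γ),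
    (hx x - algebraMap R (Γ → R) (hx x x)) with hδ
  have hδH : δ ∈ H := by
    rw [hδ]
    refine H.prod_mem fun x hx0 => ?_
    exact H.sub_mem (hxH x (Finset.ne_of_mem_erase hx0)) (H.algebraMap_mem _)
  have hδ0 : IsUnit (δ 0) := by
    rw [hδ, Finset.prod_apply]
    refine IsUnit.prod_iff.2 fun x hx0 => ?_
    exact hxu x (Finset.ne_of_mem_erase hx0)
  have hδne : ∀ y : Γ, y ≠ 0 → δ y = 0 := by
    intro y hy
    rw [hδ, Finset.prod_apply]
    refine Finset.prod_eq_zero (i := y) (Finset.mem_erase.2 ⟨hy, Finset.mem_univ _⟩) ?_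
    simp
  obtain ⟨u, hu⟩ := hδ0
  rw [eq_top_iff]
  intro f _
  have hf : f = ∑ y : Γ, (f y * (↑u⁻¹ : R)) • hopfTrans (-y) δ := by
    funext x
    rw [Finset.sum_apply, Finset.sum_eq_single x]
    · simp only [Pi.smul_apply, hopfTrans_apply, smul_eq_mul]
      rw [show x + -x = 0 by abel, ← hu, mul_assoc, Units.inv_mul, mul_one]
    · intro y _ hyx
      simp only [Pi.smul_apply, hopfTrans_apply, smul_eq_mul]
      have hne : x + -y ≠ 0 := by
        intro h0
        apply hyx
        rw [← sub_eq_add_neg, sub_eq_zero] at h0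
        exact h0.symm
      rw [hδne (x + -y) hne, mul_zero]
    · intro h
      exact absurd (Finset.mem_univ x) h
  rw [hf]
  exact H.sum_mem fun y _ => H.smul_mem (htrans δ hδH _) _

end etale

section main

variable {R : Type*} [CommRing R] [IsDomain R] [IsDiscreteValuationRing R]
  {Γ : Type*} [AddCommGroup Γ] [Finite Γ]

/-- The subgroup of points not separated from `0` modulo `a` by `H`. -/
def hopfConnSubgroup (a : R) (H : Subalgebra R (Γ → R)) (hΔ : DeltaClosed H) : AddSubgroup Γ where
  carrier := {x | ∀ h ∈ H, a ∣ h x - h 0}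
  zero_mem' := fun h _ => by simp
  add_mem' := by
    intro x y hx hy h hh
    have h1 := hx (hopfTrans y h) (hΔ.trans_mem hh y)
    have h2 := hy h hh
    simp only [hopfTrans_apply, zero_add] at h1
    have : h (x + y) - h 0 = (h (x + y) - h y) + (h y - h 0) := by ring
    rw [this]
    exact dvd_add h1 h2
  neg_mem' := by
    intro x hx h hh
    have h1 := hx (hopfTrans (-x) h) (hΔ.trans_mem hh (-x))
    simp only [hopfTrans_apply, zero_add, add_neg_cancel] at h1
    have : h (-x) - h 0 = -(h 0 - h (-x)) := by ring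
    rw [this]
    exact (dvd_neg).2 h1

/-- **HOPF LEMMA.** `R` a discrete valuation ring with uniformiser the odd prime `p`, `Γ` a
group of order `p`: a `Δ`-closed `R`-subalgebra of `Γ → R` containing a nonconstant function is
everything. -/
theorem hopfLemma {p : ℕ} (hp : p.Prime) (hp2 : p ≠ 2) (hpR : Irreducible (p : R))
    (hΓ : Nat.card Γ = p) (H : Subalgebra R (Γ → R)) (hΔ : DeltaClosed H)
    (hfull : ∃ h ∈ H, ∃ x, h x ≠ h 0) : H = ⊤ := by
  haveI : Fact (Nat.card Γ).Prime := ⟨hΓ ▸ hp⟩
  haveI : Fact p.Prime := ⟨hp⟩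
  rcases (hopfConnSubgroup (p : R) H hΔ).eq_bot_or_eq_top_of_prime_card with hN | hN
  · -- étale case
    refine hopf_etale_eq_top H (fun h hh g => hΔ.trans_mem hh g) fun x hx => ?_
    have hxN : x ∉ hopfConnSubgroup (p : R) H hΔ := by
      rw [hN, AddSubgroup.mem_bot]; exact hx
    have : ¬ ∀ h ∈ H, (p : R) ∣ h x - h 0 := hxN
    push Not at this
    obtain ⟨h, hh, hnd⟩ := this
    refine ⟨h, hh, ?_⟩
    by_contra hnu
    have hmem : h 0 - h x ∈ IsLocalRing.maximalIdeal R := (IsLocalRing.mem_maximalIdeal _).2 hnu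
    rw [hpR.maximalIdeal_eq, Ideal.mem_span_singleton] at hmem
    apply hnd
    have : h x - h 0 = -(h 0 - h x) := by ring
    rw [this]
    exact (dvd_neg).2 hmem
  · -- connected case: contradiction
    exfalso
    obtain ⟨h, hh, x, hx⟩ := hfull
    have hconst : ∀ h ∈ H, ∀ x, (p : R) ∣ h x - h 0 := by
      intro h hh x
      have : x ∈ hopfConnSubgroup (p : R) H hΔ := by rw [hN]; exact AddSubgroup.mem_top x
      exact this h hh
    have hx0 : x ≠ 0 := by
      rintro rfl
      exact hx rfl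
    have hpx : p • x = 0 := by
      rw [← hΓ]
      exact card_nsmul_eq_zero'
    have hinv := hopf_connected_invariant p hp hp2 hpR.not_isUnit hpR.ne_zero H hΔ hconst x hpx
      h hh
    have hmul : ∀ n : ℕ, h (n • x) = h 0 := by
      intro n
      induction n with
      | zero => simp
      | succ n ih => rw [succ_nsmul, hinv, ih]
    apply hx
    have := hmul 1
    rwa [one_nsmul] at this

/-- Corollary: the indicator function of `0` belongs to every Hopf order. -/
theorem hopfLemma_single_mem [DecidableEq Γ] {p : ℕ} (hp : p.Prime) (hp2 : p ≠ 2)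
    (hpR : Irreducible (p : R)) (hΓ : Nat.card Γ = p) (H : Subalgebra R (Γ → R))
    (hΔ : DeltaClosed H) (hfull : ∃ h ∈ H, ∃ x, h x ≠ h 0) :
    (Pi.single (0 : Γ) (1 : R) : Γ → R) ∈ H := by
  rw [hopfLemma hp hp2 hpR hΓ H hΔ hfull]
  exact Algebra.mem_top

/-- Corollary, in the form used for the kernel of reduction: the functions of a Hopf order are
not all constant modulo `p`. -/
theorem hopfLemma_not_const {p : ℕ} (hp : p.Prime) (hp2 : p ≠ 2)
    (hpR : Irreducible (p : R)) (hΓ : Nat.card Γ = p) (H : Subalgebra R (Γ → R))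
    (hΔ : DeltaClosed H) (hfull : ∃ h ∈ H, ∃ x, h x ≠ h 0) :
    ¬ ∀ h ∈ H, ∀ x, (p : R) ∣ h x - h 0 := by
  classical
  intro hconst
  have h1 := hopfLemma_single_mem hp hp2 hpR hΓ H hΔ hfull
  obtain ⟨h, hh, x, hx⟩ := hfull
  have hx0 : x ≠ 0 := by
    rintro rfl
    exact hx rfl
  have := hconst _ h1 x
  rw [Pi.single_eq_same, Pi.single_eq_of_ne hx0, zero_sub, dvd_neg] at this
  exact hpR.not_isUnit (isUnit_of_dvd_one this)

end main

end Fermat.Agent.H5.Ord
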