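import Mathlib

/-!
# P-ORD, HOPF LEMMA (helper5), part 1: the polynomial identity

For an odd prime `p` there are `A, C ∈ ℤ[X]` with
`p (X - 1) = (X - 1) ^ p * A + (X ^ p - 1) * C`,
and hence for every `n` there is `C_n` with
`p ^ n (X - 1) = (X - 1) ^ (n (p - 1) + 1) * A ^ n + (X ^ p - 1) * C_n`.
-/

set_option autoImplicit false

namespace Fermat.Agent.H5.Ord

open Polynomial

/-- `p (X - 1) ∈ ((X - 1) ^ p, X ^ p - 1)` in `ℤ[X]`, `p` an odd prime. -/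
theorem hopf_poly_identity (p : ℕ) (hp : p.Prime) (hp2 : p ≠ 2) :
    ∃ A C : ℤ[X], (p : ℤ[X]) * (X - 1) = (X - 1) ^ p * A + (X ^ p - 1) * C := by
  classical
  set Y : ℤ[X] := X - 1 with hY
  set r : ℤ[X] := ∑ k ∈ Finset.Ioo 0 p, Y ^ (k - 1) * (1 : ℤ[X]) ^ (p - k - 1) *
    ((p.choose k / p : ℕ) : ℤ[X]) with hr
  have h1 : (X : ℤ[X]) ^ p = Y ^ p + 1 + p * Y * r := by
    have := add_pow_prime_eq hp Y (1 : ℤ[X])
    rw [one_pow, mul_one] at this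
    rw [← this, hY, sub_add_cancel]
  -- `r ≡ 1 mod Y`
  have hr1 : r.eval 1 = 1 := by
    rw [hr, eval_finsetSum]
    rw [Finset.sum_eq_single 1]
    · simp [Nat.choose_one_right, Nat.div_self hp.pos]
    · intro k hk hk1
      have hk0 : 0 < k := (Finset.mem_Ioo.1 hk).1
      have : k - 1 ≠ 0 := by omega
      simp [hY, this]
    · intro h
      exact absurd (Finset.mem_Ioo.2 ⟨Nat.one_pos, hp.one_lt⟩) h
  obtain ⟨B, hB⟩ : Y ∣ r - 1 := by
    rw [hY, show (X : ℤ[X]) - 1 = X - C 1 by simp, dvd_iff_isRoot]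
    simp [IsRoot, hr1]
  have hrB : r = 1 + Y * B := by rw [← hB]; ring
  -- geometric series
  set x : ℤ[X] := -(Y * B) with hx
  set U : ℤ[X] := ∑ i ∈ Finset.range (p - 1), x ^ i with hU
  have hgeo : U * (1 - x) = 1 - x ^ (p - 1) := geom_sum_mul_neg x (p - 1)
  have hodd : Even (p - 1) := by
    rcases hp.eq_two_or_odd' with h | h
    · exact absurd h hp2
    · obtain ⟨m, hm⟩ := h
      exact ⟨m, by omega⟩
  have hxp : x ^ (p - 1) = Y ^ (p - 1) * B ^ (p - 1) := by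
    rw [hx, hodd.neg_pow, mul_pow]
  have hYp : Y ^ p = Y * Y ^ (p - 1) := by
    rw [← pow_succ']
    congr 1
    have := hp.pos
    omega
  refine ⟨(p : ℤ[X]) * B ^ (p - 1) - U, U, ?_⟩
  have h1x : (1 : ℤ[X]) - x = r := by rw [hrB, hx]; ring
  rw [h1x] at hgeo
  have h2 : (X : ℤ[X]) ^ p - 1 = Y ^ p + p * Y * r := by rw [h1]; ring
  rw [h2]
  have h3 : (p : ℤ[X]) * Y * r * U = p * Y * (1 - x ^ (p - 1)) := by
    rw [← hgeo]; ring
  calc (p : ℤ[X]) * Y = p * Y * (1 - x ^ (p - 1)) + p * Y * x ^ (p - 1) := by ring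
    _ = p * Y * r * U + p * (Y * Y ^ (p - 1)) * B ^ (p - 1) := by rw [h3, hxp]; ring
    _ = p * Y * r * U + p * Y ^ p * B ^ (p - 1) := by rw [hYp]
    _ = Y ^ p * (p * B ^ (p - 1) - U) + (Y ^ p + p * Y * r) * U := by ring

/-- Iterated form. -/
theorem hopf_poly_identity_pow (p : ℕ) (hp : p.Prime) (hp2 : p ≠ 2) :
    ∃ A : ℤ[X], ∀ n : ℕ, ∃ C : ℤ[X],
      (p : ℤ[X]) ^ n * (X - 1) = (X - 1) ^ (n * (p - 1) + 1) * A ^ n + (X ^ p - 1) * C := by
  obtain ⟨A, C, h⟩ := hopf_poly_identity p hp hp2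
  refine ⟨A, fun n => ?_⟩
  induction n with
  | zero => exact ⟨0, by simp⟩
  | succ n ih =>
    obtain ⟨Cn, hn⟩ := ih
    refine ⟨(X - 1) ^ (n * (p - 1)) * A ^ n * C + (p : ℤ[X]) * Cn, ?_⟩
    have hexp : (n + 1) * (p - 1) + 1 = n * (p - 1) + p := by
      have := hp.pos
      have h1 : (n + 1) * (p - 1) = n * (p - 1) + (p - 1) := by ring
      omega
    rw [hexp]
    calc (p : ℤ[X]) ^ (n + 1) * (X - 1) = (p : ℤ[X]) * ((p : ℤ[X]) ^ n * (X - 1)) := by ring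
      _ = (p : ℤ[X]) * ((X - 1) ^ (n * (p - 1) + 1) * A ^ n + (X ^ p - 1) * Cn) := by rw [hn]
      _ = (X - 1) ^ (n * (p - 1)) * A ^ n * ((p : ℤ[X]) * (X - 1))
            + (X ^ p - 1) * ((p : ℤ[X]) * Cn) := by ring
      _ = (X - 1) ^ (n * (p - 1)) * A ^ n * ((X - 1) ^ p * A + (X ^ p - 1) * C)
            + (X ^ p - 1) * ((p : ℤ[X]) * Cn) := by rw [h]
      _ = _ := by ring

end Fermat.Agent.H5.Ord
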